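import Fermat.Agent.S59.NM.H709.Action
import Fermat.Agent.S59.TW.H653.Systems

/-!
# S59 / cell TW, layer 3 (AUT), piece ES-ACT of MOD0 (helper709)

**The Hecke ring acts on every Hecke-stable submodule of parabolic classes.**

`X = Hom(Γ₀(N), O)`, `O` a domain of characteristic `0`, `S` a set of primes containing the primes
dividing `N`, `V ⊆ X` an `O`-submodule such that

* every `v ∈ V` is parabolic (`IsParabolicHom`; implied by `S41.Spec.IsCuspidal`, `H653.IsCuspidalK`),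
* `V` is stable under the `T_ℓ` (`ℓ ∤ N`, `ℓ ∉ S`), `T_ℓ` = `heckeTransfer` = `H653.TK N (Γ₀(N)) ℓ`.

Then the abstract Hecke ring `heckeAlgebra N 2 S ⊆ End_ℂ S₂(Γ₀(N))` acts on `V`, `T_ℓ ↦ T_ℓ`:
`esAct : heckeAlgebra N 2 S →+* Module.End O V` with `coe_esAct_T` / `coe_esAct_TK`
(Eichler–Shimura: `V ⊆ Hom(Λ, O)`, `Λ` the period lattice, on which the Hecke ring acts by
transposes; `NM/H709/{Factor,Action}.lean`).

* `exists_esAct`, `exists_esAct_TK` : the existential forms (input `f` of the LOC-ACT lemmas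
  `TW.H24.exists_algHom_of_nilp_T`, `TW.H564.exists_heckeLocal_action`).
-/

set_option autoImplicit false

noncomputable section

namespace Fermat.Agent.S59.TW.H709

open CongruenceSubgroup ModularCurve ModularCurve.Period CuspForm
open Fermat.Agent.S30.H709 Fermat.Agent.S41.Spec Fermat.Agent.S29 Fermat.Agent.S29.H642
open Fermat.Agent.S59.NM.H709 Fermat.Agent.S59.TW.H653
open scoped MatrixGroups

variable {N : ℕ} [NeZero N] {S : Set ℕ}
variable (O : Type) [CommRing O]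

/-- `u ↦ u ∘ perCls`, as an `O`-linear map `Hom(Λ, O) → Hom(Γ₀(N), O)`. -/
def toClsLin (N : ℕ) [NeZero N] (O : Type) [CommRing O] :
    (perLattice N →+ O) →ₗ[O] (Additive (Gamma0 N) →+ O) where
  toFun := toCls
  map_add' := toCls_add
  map_smul' := toCls_smul

@[simp] theorem toClsLin_apply (u : perLattice N →+ O) : toClsLin N O u = toCls u := rfl

/-- The submodule of `Hom(Λ, O)` corresponding to `V ⊆ Hom(Γ₀(N), O)`. -/
def preSub (V : Submodule O (Additive (Gamma0 N) →+ O)) : Submodule O (perLattice N →+ O) :=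
  V.comap (toClsLin N O)

theorem mem_preSub {V : Submodule O (Additive (Gamma0 N) →+ O)} {u : perLattice N →+ O} :
    u ∈ preSub O V ↔ toCls u ∈ V := Iff.rfl

/-- Stability of `V` under the `T_ℓ` implies stability of `preSub V` under the whole Hecke ring. -/
theorem actHom_mem_preSub (hNS : ∀ q : ℕ, q.Prime → q ∣ N → q ∈ S)
    (V : Submodule O (Additive (Gamma0 N) →+ O))
    (hstab : ∀ (l : ℕ) [Fact l.Prime] (hl : ¬ l ∣ N), l ∉ S → ∀ v ∈ V, heckeTransfer hl v ∈ V)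
    (t : heckeAlgebra N 2 S) : ∀ u ∈ preSub O V, actHom O hNS t u ∈ preSub O V := by
  obtain ⟨t, ht⟩ := t
  induction ht using Algebra.adjoin_induction with
  | mem t ht =>
    rcases ht with ⟨l, hl, hlN, hlS, rfl⟩ | ⟨q, hqN, hq, hqS, rfl⟩
    · intro u hu
      have : Fact l.Prime := ⟨hl⟩
      have h1 := toCls_actHom_T O hNS hlN hlS u
      rw [mem_preSub]
      have h2 : toCls (actHom O hNS (heckeAlgebra.T hl hlN hlS) u) ∈ V := by
        rw [h1]
        exact hstab l hlN hlS _ hu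
      exact h2
    · exact absurd (hNS q hq hqN) hqS
  | algebraMap n =>
    intro u hu
    have h1 : (⟨algebraMap ℤ (Module.End ℂ (CuspForm (Gamma0 N) 2)) n,
        Subalgebra.algebraMap_mem _ n⟩ : heckeAlgebra N 2 S) = algebraMap ℤ _ n := rfl
    rw [h1]
    have h2 : actHom O hNS (algebraMap ℤ (heckeAlgebra N 2 S) n) u = (n : O) • u := by
      rw [eq_intCast, map_intCast]
      refine AddMonoidHom.ext fun x => ?_
      simp
    rw [h2]
    exact Submodule.smul_mem _ _ hu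
  | add t s ht hs iht ihs =>
    intro u hu
    have h1 : (⟨t + s, Subalgebra.add_mem _ ht hs⟩ : heckeAlgebra N 2 S) = ⟨t, ht⟩ + ⟨s, hs⟩ := rfl
    rw [h1, map_add, LinearMap.add_apply]
    exact Submodule.add_mem _ (iht u hu) (ihs u hu)
  | mul t s ht hs iht ihs =>
    intro u hu
    have h1 : (⟨t * s, Subalgebra.mul_mem _ ht hs⟩ : heckeAlgebra N 2 S) = ⟨t, ht⟩ * ⟨s, hs⟩ := rfl
    rw [h1, map_mul, Module.End.mul_apply]
    exact iht _ (ihs u hu)

/-- The restriction of `actHom t` to `preSub V`. -/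
def preEnd (hNS : ∀ q : ℕ, q.Prime → q ∣ N → q ∈ S)
    (V : Submodule O (Additive (Gamma0 N) →+ O))
    (hstab : ∀ (l : ℕ) [Fact l.Prime] (hl : ¬ l ∣ N), l ∉ S → ∀ v ∈ V, heckeTransfer hl v ∈ V)
    (t : heckeAlgebra N 2 S) : Module.End O (preSub O V) where
  toFun u := ⟨actHom O hNS t u.1, actHom_mem_preSub O hNS V hstab t u.1 u.2⟩
  map_add' u v := Subtype.ext (map_add (actHom O hNS t) u.1 v.1)
  map_smul' c u := Subtype.ext (map_smul (actHom O hNS t) c u.1)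

theorem coe_preEnd (hNS : ∀ q : ℕ, q.Prime → q ∣ N → q ∈ S)
    (V : Submodule O (Additive (Gamma0 N) →+ O))
    (hstab : ∀ (l : ℕ) [Fact l.Prime] (hl : ¬ l ∣ N), l ∉ S → ∀ v ∈ V, heckeTransfer hl v ∈ V)
    (t : heckeAlgebra N 2 S) (u : preSub O V) :
    ((preEnd O hNS V hstab t u : preSub O V) : perLattice N →+ O) = actHom O hNS t u.1 := rfl

theorem preEnd_one (hNS : ∀ q : ℕ, q.Prime → q ∣ N → q ∈ S)
    (V : Submodule O (Additive (Gamma0 N) →+ O))
    (hstab : ∀ (l : ℕ) [Fact l.Prime] (hl : ¬ l ∣ N), l ∉ S → ∀ v ∈ V, heckeTransfer hl v ∈ V) :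
    preEnd O hNS V hstab 1 = 1 := by
  refine LinearMap.ext fun u => Subtype.ext ?_
  have h : actHom O hNS (1 : heckeAlgebra N 2 S) = 1 := (actHom O hNS).map_one
  have h2 := congrArg (fun f : Module.End O (perLattice N →+ O) => f u.1) h
  exact h2

theorem preEnd_mul (hNS : ∀ q : ℕ, q.Prime → q ∣ N → q ∈ S)
    (V : Submodule O (Additive (Gamma0 N) →+ O))
    (hstab : ∀ (l : ℕ) [Fact l.Prime] (hl : ¬ l ∣ N), l ∉ S → ∀ v ∈ V, heckeTransfer hl v ∈ V)
    (t s : heckeAlgebra N 2 S) :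
    preEnd O hNS V hstab (t * s) = preEnd O hNS V hstab t * preEnd O hNS V hstab s := by
  refine LinearMap.ext fun u => Subtype.ext ?_
  have h : actHom O hNS (t * s) = actHom O hNS t * actHom O hNS s := (actHom O hNS).map_mul t s
  have h2 := congrArg (fun f : Module.End O (perLattice N →+ O) => f u.1) h
  exact h2

theorem preEnd_zero (hNS : ∀ q : ℕ, q.Prime → q ∣ N → q ∈ S)
    (V : Submodule O (Additive (Gamma0 N) →+ O))
    (hstab : ∀ (l : ℕ) [Fact l.Prime] (hl : ¬ l ∣ N), l ∉ S → ∀ v ∈ V, heckeTransfer hl v ∈ V) :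
    preEnd O hNS V hstab 0 = 0 := by
  refine LinearMap.ext fun u => Subtype.ext ?_
  have h : actHom O hNS (0 : heckeAlgebra N 2 S) = 0 := (actHom O hNS).map_zero
  have h2 := congrArg (fun f : Module.End O (perLattice N →+ O) => f u.1) h
  exact h2

theorem preEnd_add (hNS : ∀ q : ℕ, q.Prime → q ∣ N → q ∈ S)
    (V : Submodule O (Additive (Gamma0 N) →+ O))
    (hstab : ∀ (l : ℕ) [Fact l.Prime] (hl : ¬ l ∣ N), l ∉ S → ∀ v ∈ V, heckeTransfer hl v ∈ V)
    (t s : heckeAlgebra N 2 S) :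
    preEnd O hNS V hstab (t + s) = preEnd O hNS V hstab t + preEnd O hNS V hstab s := by
  refine LinearMap.ext fun u => Subtype.ext ?_
  have h : actHom O hNS (t + s) = actHom O hNS t + actHom O hNS s := (actHom O hNS).map_add t s
  have h2 := congrArg (fun f : Module.End O (perLattice N →+ O) => f u.1) h
  exact h2

/-- The Hecke ring acts on `preSub V`. -/
def preAct (hNS : ∀ q : ℕ, q.Prime → q ∣ N → q ∈ S)
    (V : Submodule O (Additive (Gamma0 N) →+ O))
    (hstab : ∀ (l : ℕ) [Fact l.Prime] (hl : ¬ l ∣ N), l ∉ S → ∀ v ∈ V, heckeTransfer hl v ∈ V) :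
    heckeAlgebra N 2 S →+* Module.End O (preSub O V) where
  toFun := preEnd O hNS V hstab
  map_one' := preEnd_one O hNS V hstab
  map_mul' := preEnd_mul O hNS V hstab
  map_zero' := preEnd_zero O hNS V hstab
  map_add' := preEnd_add O hNS V hstab

theorem coe_preAct (hNS : ∀ q : ℕ, q.Prime → q ∣ N → q ∈ S)
    (V : Submodule O (Additive (Gamma0 N) →+ O))
    (hstab : ∀ (l : ℕ) [Fact l.Prime] (hl : ¬ l ∣ N), l ∉ S → ∀ v ∈ V, heckeTransfer hl v ∈ V)
    (t : heckeAlgebra N 2 S) (u : preSub O V) :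
    ((preAct O hNS V hstab t u : preSub O V) : perLattice N →+ O) = actHom O hNS t u.1 := rfl

variable [IsDomain O] [CharZero O]

/-- `preSub V ≃ V` for a submodule `V` of parabolic classes (Eichler–Shimura). -/
def preEquiv (V : Submodule O (Additive (Gamma0 N) →+ O))
    (hcusp : ∀ v ∈ V, IsParabolicHom (Gamma0 N) v) : preSub O V ≃ₗ[O] V where
  toFun u := ⟨toCls u.1, u.2⟩
  map_add' _ _ := rfl
  map_smul' _ _ := rfl
  invFun v := ⟨ofCls v.1 (hcusp v.1 v.2), by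
    rw [mem_preSub, toCls_ofCls]
    exact v.2⟩
  left_inv u := Subtype.ext (ofCls_toCls u.1 (hcusp _ u.2))
  right_inv v := Subtype.ext (toCls_ofCls v.1 (hcusp v.1 v.2))

theorem coe_preEquiv (V : Submodule O (Additive (Gamma0 N) →+ O))
    (hcusp : ∀ v ∈ V, IsParabolicHom (Gamma0 N) v) (u : preSub O V) :
    ((preEquiv O V hcusp u : V) : Additive (Gamma0 N) →+ O) = toCls u.1 := rfl

theorem toCls_preEquiv_symm (V : Submodule O (Additive (Gamma0 N) →+ O))
    (hcusp : ∀ v ∈ V, IsParabolicHom (Gamma0 N) v) (v : V) :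
    toCls ((preEquiv O V hcusp).symm v : preSub O V).1 = v.1 :=
  toCls_ofCls v.1 (hcusp v.1 v.2)

/-- **ES-ACT.**  The action of the Hecke ring `heckeAlgebra N 2 S` on a Hecke-stable submodule `V`
of parabolic classes of `Hom(Γ₀(N), O)`. -/
def esAct (hNS : ∀ q : ℕ, q.Prime → q ∣ N → q ∈ S)
    (V : Submodule O (Additive (Gamma0 N) →+ O))
    (hcusp : ∀ v ∈ V, IsParabolicHom (Gamma0 N) v)
    (hstab : ∀ (l : ℕ) [Fact l.Prime] (hl : ¬ l ∣ N), l ∉ S → ∀ v ∈ V, heckeTransfer hl v ∈ V) :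
    heckeAlgebra N 2 S →+* Module.End O V :=
  ((preEquiv O V hcusp).conjRingEquiv : Module.End O (preSub O V) →+* Module.End O V).comp
    (preAct O hNS V hstab)

theorem esAct_apply (hNS : ∀ q : ℕ, q.Prime → q ∣ N → q ∈ S)
    (V : Submodule O (Additive (Gamma0 N) →+ O))
    (hcusp : ∀ v ∈ V, IsParabolicHom (Gamma0 N) v)
    (hstab : ∀ (l : ℕ) [Fact l.Prime] (hl : ¬ l ∣ N), l ∉ S → ∀ v ∈ V, heckeTransfer hl v ∈ V)
    (t : heckeAlgebra N 2 S) (v : V) :
    esAct O hNS V hcusp hstab t v =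
      preEquiv O V hcusp (preAct O hNS V hstab t ((preEquiv O V hcusp).symm v)) := rfl

/-- `T_ℓ` acts on `V` as the Hecke transfer. -/
theorem coe_esAct_T (hNS : ∀ q : ℕ, q.Prime → q ∣ N → q ∈ S)
    (V : Submodule O (Additive (Gamma0 N) →+ O))
    (hcusp : ∀ v ∈ V, IsParabolicHom (Gamma0 N) v)
    (hstab : ∀ (l : ℕ) [Fact l.Prime] (hl : ¬ l ∣ N), l ∉ S → ∀ v ∈ V, heckeTransfer hl v ∈ V)
    {l : ℕ} [Fact l.Prime] (hl : l.Prime) (hlN : ¬ l ∣ N) (hlS : l ∉ S) (v : V) :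
    ((esAct O hNS V hcusp hstab (heckeAlgebra.T hl hlN hlS) v : V) :
      Additive (Gamma0 N) →+ O) = heckeTransfer hlN (v : Additive (Gamma0 N) →+ O) := by
  have hh : heckeAlgebra.T (N := N) (k := 2) (S := S) hl hlN hlS =
      heckeAlgebra.T Fact.out hlN hlS := rfl
  rw [esAct_apply, coe_preEquiv, coe_preAct, hh]
  have h1 := toCls_actHom_T O hNS hlN hlS ((preEquiv O V hcusp).symm v : preSub O V).1
  rw [toCls_preEquiv_symm] at h1
  exact h1

/-- `T_ℓ` acts on `V` as `H653.TK N (Γ₀(N)) ℓ`. -/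
theorem coe_esAct_TK (hNS : ∀ q : ℕ, q.Prime → q ∣ N → q ∈ S)
    (V : Submodule O (Additive (Gamma0 N) →+ O))
    (hcusp : ∀ v ∈ V, IsParabolicHom (Gamma0 N) v)
    (hstab : ∀ (l : ℕ) [Fact l.Prime] (hl : ¬ l ∣ N), l ∉ S → ∀ v ∈ V, heckeTransfer hl v ∈ V)
    {l : ℕ} (hl : l.Prime) (hlN : ¬ l ∣ N) (hlS : l ∉ S) (v : V) :
    ((esAct O hNS V hcusp hstab (heckeAlgebra.T hl hlN hlS) v : V) :
      Additive (Gamma0 N) →+ O) =
        @TK N (Gamma0 N) O _ l ⟨hl.ne_zero⟩ (v : Additive (Gamma0 N) →+ O) := by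
  have : Fact l.Prime := ⟨hl⟩
  rw [coe_esAct_T O hNS V hcusp hstab hl hlN hlS v]
  exact (TK_Gamma0 hlN _).symm

/-- **ES-ACT**, existential form with `heckeTransfer`. -/
theorem exists_esAct (hNS : ∀ q : ℕ, q.Prime → q ∣ N → q ∈ S)
    (V : Submodule O (Additive (Gamma0 N) →+ O))
    (hcusp : ∀ v ∈ V, IsParabolicHom (Gamma0 N) v)
    (hstab : ∀ (l : ℕ) [Fact l.Prime] (hl : ¬ l ∣ N), l ∉ S → ∀ v ∈ V, heckeTransfer hl v ∈ V) :
    ∃ Ψ : heckeAlgebra N 2 S →+* Module.End O V,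
      ∀ (l : ℕ) [Fact l.Prime] (hl : l.Prime) (hlN : ¬ l ∣ N) (hlS : l ∉ S) (v : V),
        ((Ψ (heckeAlgebra.T hl hlN hlS) v : V) : Additive (Gamma0 N) →+ O) =
          heckeTransfer hlN (v : Additive (Gamma0 N) →+ O) :=
  ⟨esAct O hNS V hcusp hstab, fun _ _ hl hlN hlS v => coe_esAct_T O hNS V hcusp hstab hl hlN hlS v⟩


/-- **ES-ACT**, existential form in the vocabulary of `TW/H653` and of `TW/Aut/Spec.lean`
(`Aut.tOp N (Gamma0 N) O l hl = @TK N (Gamma0 N) O _ l ⟨hl.ne_zero⟩` by `rfl`); the stability is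
asked for `TK`. -/
theorem exists_esAct_TK (hNS : ∀ q : ℕ, q.Prime → q ∣ N → q ∈ S)
    (V : Submodule O (Additive (Gamma0 N) →+ O))
    (hcusp : ∀ v ∈ V, IsParabolicHom (Gamma0 N) v)
    (hstab : ∀ (l : ℕ) (hl : l.Prime), ¬ l ∣ N → l ∉ S →
      ∀ v ∈ V, @TK N (Gamma0 N) O _ l ⟨hl.ne_zero⟩ v ∈ V) :
    ∃ Ψ : heckeAlgebra N 2 S →+* Module.End O V,
      ∀ (l : ℕ) (hl : l.Prime) (hlN : ¬ l ∣ N) (hlS : l ∉ S) (v : V),
        ((Ψ (heckeAlgebra.T hl hlN hlS) v : V) : Additive (Gamma0 N) →+ O) =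
          @TK N (Gamma0 N) O _ l ⟨hl.ne_zero⟩ (v : Additive (Gamma0 N) →+ O) := by
  have hstab' : ∀ (l : ℕ) [Fact l.Prime] (hl : ¬ l ∣ N), l ∉ S →
      ∀ v ∈ V, heckeTransfer hl v ∈ V := by
    intro l _ hl hlS v hv
    rw [← TK_Gamma0 hl v]
    exact hstab l Fact.out hl hlS v hv
  exact ⟨esAct O hNS V hcusp hstab', fun l hl hlN hlS v =>
    coe_esAct_TK O hNS V hcusp hstab' hl hlN hlS v⟩

end Fermat.Agent.S59.TW.H709
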